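/-
Program C (S55), package C4 (helper26), leaf (FL1) = tasks row 408 (helper72).

`corrEExists : H26.LocalFieldLevelsStatement q → H26.CorrEExistsStatement p q`:
every level-constant 2-cocycle `f` of `H = Gal(Ω/E)` with trivial coefficients `𝔽_p` is realised
at a finite Galois level `L'/E` by the unit-valued cocycle `ζ ^ f`.

Proof.  The level `F'` of `f` gives (LVL)(a) a finite Galois `L₀/ℚ_q` with
`Gal(Ω/L₀) ≤ (Dloc q).sub F'`.  `L' := E(roots of T)`, `T` a separable polynomial with splitting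
field `L₀`, is finite Galois over `E` and contains `L₀`; the restriction `resE : H → Gal(L'/E)`
is onto and two elements with the same restriction differ by an element of
`H ∩ (Dloc q).sub F'`, so `f` factors through `Gal(L'/E)²`.  The cocycle identity for `ζ ^ f`
is that of `f`, because `ζ ∈ E` is fixed by `Gal(L'/E)`.

By-products: `resE_apply_coe`, `resE_surjective`, `exists_galois_over`, `zetaPow_add`.
-/
import Fermat.Agent.S55.H26.LocalInvPlan

set_option autoImplicit false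

open CategoryTheory

noncomputable section

namespace Fermat.Agent.S55.H72

open Fermat.Agent.S55.H49 Fermat.Agent.S55.H26 Fermat.Agent.S55.H66
open IntermediateField

/-- The value of the restriction `resE E L' h` at `x ∈ L'`. -/
theorem resE_apply_coe {q : ℕ} [Fact q.Prime] (E : IntermediateField ℚ_[q] (PadicAlgCl q))
    (L' : IntermediateField E (PadicAlgCl q)) [Normal E L'] (h : E.fixingSubgroup) (x : L') :
    ((resE E L' h x : L') : PadicAlgCl q) = (h : PadicAlgCl q ≃ₐ[ℚ_[q]] PadicAlgCl q) x := by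
  have := AlgEquiv.restrictNormal_commutes (IntermediateField.fixingSubgroupEquiv E h) L' x
  exact this

theorem resE_surjective {q : ℕ} [Fact q.Prime] (E : IntermediateField ℚ_[q] (PadicAlgCl q))
    (L' : IntermediateField E (PadicAlgCl q)) [Normal E L'] :
    Function.Surjective (resE E L') := by
  intro σ
  obtain ⟨χ, hχ⟩ := AlgEquiv.restrictNormalHom_surjective (F := E) (K₁ := L') (PadicAlgCl q) σ
  exact ⟨(IntermediateField.fixingSubgroupEquiv E).symm χ, by
    show AlgEquiv.restrictNormalHom L' ((IntermediateField.fixingSubgroupEquiv E)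
      ((IntermediateField.fixingSubgroupEquiv E).symm χ)) = σ
    rw [MulEquiv.apply_symm_apply, hχ]⟩

/-- A finite Galois extension `L'/E` inside `Ω` containing a given finite Galois extension
`L₀/ℚ_q`. -/
theorem exists_galois_over {q : ℕ} [Fact q.Prime] (E L₀ : IntermediateField ℚ_[q] (PadicAlgCl q))
    [FiniteDimensional ℚ_[q] L₀] [IsGalois ℚ_[q] L₀] :
    ∃ (L' : IntermediateField E (PadicAlgCl q)), FiniteDimensional E L' ∧ IsGalois E L' ∧
      ∀ x ∈ L₀, x ∈ L' := by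
  obtain ⟨T, hT₁, hT₂⟩ := IsGalois.is_separable_splitting_field ℚ_[q] L₀
  let T' := T.map (algebraMap ℚ_[q] E)
  have hsp : (T'.map (algebraMap E (PadicAlgCl q))).Splits := IsAlgClosed.splits _
  have hSF : T'.IsSplittingField E (adjoin E (T'.rootSet (PadicAlgCl q))) :=
    adjoin_rootSet_isSplittingField hsp
  have hgal : IsGalois E (adjoin E (T'.rootSet (PadicAlgCl q))) :=
    IsGalois.of_separable_splitting_field (p := T') hT₁.map
  have hfin : FiniteDimensional E (adjoin E (T'.rootSet (PadicAlgCl q))) :=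
    Polynomial.IsSplittingField.finiteDimensional _ T'
  refine ⟨adjoin E (T'.rootSet (PadicAlgCl q)), hfin, hgal, ?_⟩
  have h' : T'.rootSet (PadicAlgCl q) = T.rootSet (PadicAlgCl q) := by
    simp [Set.ext_iff, Polynomial.mem_rootSet', T']
  have hT₃ := ((IntermediateField.isSplittingField_iff (L := PadicAlgCl q)).1 hT₂).2
  intro x hx
  rw [hT₃] at hx
  have hle : adjoin ℚ_[q] (T.rootSet (PadicAlgCl q)) ≤
      (adjoin E (T'.rootSet (PadicAlgCl q))).restrictScalars ℚ_[q] := by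
    rw [adjoin_le_iff, ← h']
    exact subset_adjoin E _
  exact hle hx

variable (p : ℕ) [Fact p.Prime] (q : ℕ) [Fact q.Prime]

/-- `a ↦ ζ ^ a` is additive on `𝔽_p` when `ζ ^ p = 1`. -/
theorem zetaPow_add {F : Type} [Field F] [Algebra F (PadicAlgCl q)]
    {L : IntermediateField F (PadicAlgCl q)} (ζ : Lˣ) (hζ : ζ ^ p = 1) (a b : ZMod p) :
    zetaPow p ζ (a + b) = zetaPow p ζ a + zetaPow p ζ b := by
  have h : ζ ^ (a + b).val = ζ ^ a.val * ζ ^ b.val := by
    rw [← pow_add, ZMod.val_add, ← Nat.mod_add_div (a.val + b.val) p, pow_add, pow_mul, hζ,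
      one_pow, mul_one]
    simp
  show Rep.toAdditive.symm (Additive.ofMul (ζ ^ (a + b).val)) = _
  rw [h]
  rfl

/-- **Leaf (FL1)** of C4: every level-constant 2-cocycle of `H = Gal(Ω/E)` with trivial
coefficients `𝔽_p` is realised at some finite Galois level `L'/E`. -/
theorem corrEExists (hLVL : LocalFieldLevelsStatement q) : CorrEExistsStatement p q := by
  intro ζ hζ E _ hζE f hf hcoc
  obtain ⟨F', hF', hinv⟩ := hf
  obtain ⟨L₀, hL₀fin, hL₀gal, hL₀sub⟩ := hLVL.1 F' hF'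
  obtain ⟨L', hL'fin, hL'gal, hL'⟩ := exists_galois_over E L₀
  have hp0 : p ≠ 0 := (Fact.out : p.Prime).ne_zero
  -- the root of unity in `L'`
  have hζ0 : (algebraMap E L' ⟨ζ, hζE⟩ : L') ≠ 0 := by
    intro h0
    have h1 : ((algebraMap E L' ⟨ζ, hζE⟩ : L') : PadicAlgCl q) = 0 := by rw [h0]; rfl
    exact hζ.ne_zero hp0 h1
  let ζ' : L'ˣ := Units.mk0 _ hζ0
  have hζ'val : ((ζ' : L') : PadicAlgCl q) = ζ := rfl
  have hζ'p : ζ' ^ p = 1 := by
    apply Units.ext
    apply Subtype.ext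
    show ((((ζ' ^ p : L'ˣ) : L')) : PadicAlgCl q) = 1
    rw [Units.val_pow_eq_pow_val]
    show ((ζ' : L') : PadicAlgCl q) ^ p = 1
    rw [hζ'val]
    exact hζ.pow_eq_one
  -- lifts
  have hsurj := resE_surjective E L'
  let s : (L' ≃ₐ[E] L') → E.fixingSubgroup := Function.surjInv hsurj
  have hs : ∀ σ, resE E L' (s σ) = σ := Function.surjInv_eq hsurj
  -- the kernel of the restriction lies in the level subgroup
  have hker : ∀ h₁ h₂ : E.fixingSubgroup, resE E L' h₁ = resE E L' h₂ →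
      ∃ n : E.fixingSubgroup, (n : PadicAlgCl q ≃ₐ[ℚ_[q]] PadicAlgCl q) ∈ (Dloc q).sub F' ∧
        h₂ = h₁ * n := by
    intro h₁ h₂ h12
    refine ⟨h₁⁻¹ * h₂, hL₀sub ?_, by group⟩
    rw [IntermediateField.mem_fixingSubgroup_iff]
    intro x hx
    have e1 := resE_apply_coe E L' h₁ ⟨x, hL' x hx⟩
    have e2 := resE_apply_coe E L' h₂ ⟨x, hL' x hx⟩
    rw [h12] at e1
    have e3 : (h₂ : PadicAlgCl q ≃ₐ[ℚ_[q]] PadicAlgCl q) x =
        (h₁ : PadicAlgCl q ≃ₐ[ℚ_[q]] PadicAlgCl q) x := e2.symm.trans e1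
    show (h₁ : PadicAlgCl q ≃ₐ[ℚ_[q]] PadicAlgCl q)⁻¹
      ((h₂ : PadicAlgCl q ≃ₐ[ℚ_[q]] PadicAlgCl q) x) = x
    rw [e3]
    exact (h₁ : PadicAlgCl q ≃ₐ[ℚ_[q]] PadicAlgCl q).symm_apply_apply x
  have hfeq : ∀ h₁ h₂ k₁ k₂ : E.fixingSubgroup, resE E L' h₁ = resE E L' k₁ →
      resE E L' h₂ = resE E L' k₂ → f (k₁, k₂) = f (h₁, h₂) := by
    intro h₁ h₂ k₁ k₂ e1 e2
    obtain ⟨n₁, hn₁, rfl⟩ := hker h₁ k₁ e1
    obtain ⟨n₂, hn₂, rfl⟩ := hker h₂ k₂ e2
    exact hinv h₁ h₂ n₁ n₂ hn₁ hn₂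
  -- the cocycle
  let c₀ : (L' ≃ₐ[E] L') × (L' ≃ₐ[E] L') → Rep.ofAlgebraAutOnUnits E L' :=
    fun st => zetaPow p ζ' (f (s st.1, s st.2))
  have hfix : ∀ (g : L' ≃ₐ[E] L') (a : ZMod p),
      (Rep.ofAlgebraAutOnUnits E L').ρ g (zetaPow p ζ' a) = zetaPow p ζ' a := by
    intro g a
    have key : ((Additive.toMul (Rep.toAdditive
        ((Rep.ofAlgebraAutOnUnits E L').ρ g (zetaPow p ζ' a))) : L'ˣ) : L') =
        ((ζ' ^ a.val : L'ˣ) : L') := by
      show g ((ζ' ^ a.val : L'ˣ) : L') = _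
      rw [Units.val_pow_eq_pow_val, map_pow]
      congr 1
      exact g.commutes _
    exact Units.ext key
  have hc₀ : c₀ ∈ groupCohomology.cocycles₂ (Rep.ofAlgebraAutOnUnits E L') := by
    rw [groupCohomology.mem_cocycles₂_iff]
    intro g h j
    show zetaPow p ζ' (f (s (g * h), s j)) + zetaPow p ζ' (f (s g, s h)) =
      (Rep.ofAlgebraAutOnUnits E L').ρ g (zetaPow p ζ' (f (s h, s j))) +
        zetaPow p ζ' (f (s g, s (h * j)))
    rw [hfix, ← zetaPow_add p q ζ' hζ'p, ← zetaPow_add p q ζ' hζ'p]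
    congr 1
    have e1 : f (s (g * h), s j) = f (s g * s h, s j) :=
      hfeq (s g * s h) (s j) (s (g * h)) (s j) (by rw [map_mul, hs, hs, hs]) rfl
    have e2 : f (s g, s (h * j)) = f (s g, s h * s j) :=
      hfeq (s g) (s h * s j) (s g) (s (h * j)) rfl (by rw [map_mul, hs, hs, hs])
    rw [e1, e2]
    have := hcoc (s g) (s h) (s j)
    linear_combination -this
  refine ⟨L', hL'fin, hL'gal, ζ', ⟨c₀, hc₀⟩, hζ'val, ?_⟩
  intro h₁ h₂
  show zetaPow p ζ' (f (s (resE E L' h₁), s (resE E L' h₂))) = zetaPow p ζ' (f (h₁, h₂))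
  rw [hfeq h₁ h₂ (s (resE E L' h₁)) (s (resE E L' h₂)) (hs _).symm (hs _).symm]

end Fermat.Agent.S55.H72
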