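/-
Program C (S55), package C8 (helper29), leaf (CYC-GLOB) = tasks row 451 (helper72).

`cycGlob : H29.CycGlobStatement` : for `K/k` Galois of degree `p`, `β ∈ K` with `β ^ p = g`,
`g` not a `p`-th power in `k`: a norm `a` from the Kummer algebra `k[X]/(X^p - g)` is a norm from
`K`, in the module-theoretic form `∑ s, ρ(s) b = unitOfBase k K a`.

Proof: `X^p - g` is irreducible (`X_pow_sub_C_irreducible_of_prime`), so
`k[X]/(X^p - g) → K`, `X ↦ β`, is an injective `k`-algebra map between spaces of the same
dimension `p`, hence an isomorphism; norms are transported (`Algebra.norm_eq_of_algEquiv`) and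
`algebraMap (N b) = ∏ σ, σ b` (`Algebra.norm_eq_prod_automorphisms`).
-/
import Fermat.Agent.S55.H29.C8Hasse

set_option autoImplicit false

open Polynomial

noncomputable section

namespace Fermat.Agent.S55.H72

open Fermat.Agent.S55.H29 Fermat.Agent.S55

/-- The unit of `K` underlying an element of the Galois module `Kˣ`. -/
def unitOf {k K : Type} [Field k] [Field K] [Algebra k K] (x : Rep.ofAlgebraAutOnUnits k K) :
    Kˣ := Additive.toMul (Rep.toAdditive x)

theorem unitOf_add {k K : Type} [Field k] [Field K] [Algebra k K]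
    (x y : Rep.ofAlgebraAutOnUnits k K) : unitOf (x + y) = unitOf x * unitOf y := rfl

theorem unitOf_injective {k K : Type} [Field k] [Field K] [Algebra k K] :
    Function.Injective (unitOf (k := k) (K := K)) := fun _ _ h => h

theorem unitOf_rho {k K : Type} [Field k] [Field K] [Algebra k K] (g : K ≃ₐ[k] K)
    (x : Rep.ofAlgebraAutOnUnits k K) :
    ((unitOf ((Rep.ofAlgebraAutOnUnits k K).ρ g x) : Kˣ) : K) = g (unitOf x : Kˣ) := rfl

/-- The additive sum in the Galois module `Kˣ` is the product of units. -/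
theorem unitOf_sum {k K : Type} [Field k] [Field K] [Algebra k K] {ι : Type} (s : Finset ι)
    (f : ι → Rep.ofAlgebraAutOnUnits k K) :
    unitOf (∑ i ∈ s, f i) = ∏ i ∈ s, unitOf (f i) := by
  classical
  induction s using Finset.induction_on with
  | empty => simp; rfl
  | insert a s ha ih => rw [Finset.sum_insert ha, Finset.prod_insert ha, unitOf_add, ih]

/-- An isomorphism `k[X]/(X^p - g) ≃ K` when `K/k` has degree `p`, `β ^ p = g` and `g` is not a
`p`-th power. -/
theorem exists_algEquiv_adjoinRoot (k K : Type) [Field k] [Field K] [Algebra k K] (p : ℕ)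
    (hp : p.Prime) (hfr : Module.finrank k K = p) (g : k) (hg : ∀ b : k, b ^ p ≠ g) (β : K)
    (hβ : β ^ p = algebraMap k K g) :
    Nonempty (AdjoinRoot (X ^ p - C g : k[X]) ≃ₐ[k] K) := by
  have hirr : Irreducible (X ^ p - C g : k[X]) := X_pow_sub_C_irreducible_of_prime hp hg
  have : Fact (Irreducible (X ^ p - C g : k[X])) := ⟨hirr⟩
  have hne : (X ^ p - C g : k[X]) ≠ 0 := hirr.ne_zero
  have hdeg : (X ^ p - C g : k[X]).natDegree = p := natDegree_X_pow_sub_C
  have hroot : Polynomial.aeval β (X ^ p - C g : k[X]) = 0 := by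
    simp [hβ]
  let φ : AdjoinRoot (X ^ p - C g : k[X]) →ₐ[k] K := AdjoinRoot.liftAlgHom _ (Algebra.ofId k K) β (by
    simpa [Polynomial.aeval_def] using hroot)
  have hfin : FiniteDimensional k (AdjoinRoot (X ^ p - C g : k[X])) :=
    (AdjoinRoot.powerBasis hne).finite
  have hfr' : Module.finrank k (AdjoinRoot (X ^ p - C g : k[X])) = p := by
    rw [(AdjoinRoot.powerBasis hne).finrank, AdjoinRoot.powerBasis_dim, hdeg]
  have hpos : 0 < Module.finrank k K := by rw [hfr]; exact hp.pos
  have : FiniteDimensional k K := Module.finite_of_finrank_pos hpos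
  have hinj : Function.Injective φ := φ.toRingHom.injective
  have hbij : Function.Bijective φ := by
    refine ⟨hinj, ?_⟩
    have := (LinearMap.injective_iff_surjective_of_finrank_eq_finrank (f := φ.toLinearMap)
      (hfr'.trans hfr.symm)).1 hinj
    exact this
  exact ⟨AlgEquiv.ofBijective φ hbij⟩

/-- **Leaf (CYC-GLOB)** of C8. -/
theorem cycGlob : CycGlobStatement := by
  intro k K _ _ _ _ _ _ p hp hfr g hg β hβ a ha
  classical
  obtain ⟨u, hu⟩ := H8.mem_kummerNormGroup.1 ha
  have hg' : ∀ b : k, b ^ p ≠ (g : k) := by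
    intro b hb
    have hb0 : b ≠ 0 := by
      rintro rfl
      rw [zero_pow hp.ne_zero] at hb
      exact g.ne_zero hb.symm
    exact hg ⟨Units.mk0 b hb0, Units.ext hb⟩
  obtain ⟨e⟩ := exists_algEquiv_adjoinRoot k K p hp hfr (g : k) hg' β hβ
  have hpos : 0 < Module.finrank k K := by rw [hfr]; exact hp.pos
  have : FiniteDimensional k K := Module.finite_of_finrank_pos hpos
  let b₀ : Kˣ := Units.map (e : AdjoinRoot (X ^ p - C (g : k) : k[X]) →* K) u
  have hnorm : Algebra.norm k (b₀ : K) = a := by
    show Algebra.norm k (e (u : AdjoinRoot (X ^ p - C (g : k) : k[X]))) = a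
    rw [Algebra.norm_eq_of_algEquiv, hu]
  refine ⟨Rep.toAdditive.symm (Additive.ofMul b₀), ?_⟩
  rw [finsum_eq_sum_of_fintype]
  apply unitOf_injective
  rw [unitOf_sum]
  apply Units.ext
  rw [Units.coe_prod]
  show ∏ s : K ≃ₐ[k] K, s (b₀ : K) = algebraMap k K a
  rw [← Algebra.norm_eq_prod_automorphisms, hnorm]

end Fermat.Agent.S55.H72
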