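/-
Program C (S55), package C8 (helper29, SPEC v2 part 3), leaf (SEMILOCAL-H3) = tasks row 569
(helper72).

`semiLocalH3 : H29.SemiLocalH3Statement` : `H³(Gal(K/k), (K ⊗ ℚ_q)ˣ) = 0` for every finite Galois
layer of number fields and every prime `q`.  This is helper35's landed
`H35.isZero_H3_semiLocalRep` (local Tate in degree 3 + Shapiro detection), verbatim in the
shape of the C8 leaf.
-/
import Fermat.Agent.S55.H29.C8Cls
import Fermat.Agent.S55.H35.IdeleH3

set_option autoImplicit false

open CategoryTheory

namespace Fermat.Agent.S55.H72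

open Fermat.Agent.S55.H88 Fermat.Agent.S55.H29

attribute [local instance] factOfPrimes

/-- **Leaf (SEMILOCAL-H3)** of C8. -/
theorem semiLocalH3 : SemiLocalH3Statement := by
  intro k K _ _ _ _ _ _ q
  exact Fermat.Agent.S55.H35.isZero_H3_semiLocalRep (q : ℕ) k K

end Fermat.Agent.S55.H72
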