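/-
Program C (S55), package C8 (helper29), leaf (UNIT-NORM) = tasks row 474 (helper72).

`unitNorm : H29.UnitNormStatement` : for a number field `k ∋ μ_p` and `g ∈ kˣ`, at all but
finitely many finite places `v` the local units are norms from `k_v[X]/(X^p - g)`.

Proof.  The exceptional places are among those where `g` or `p` is not a unit (finite:
`H83.finiteNonunitStatement`).  At the others (`v ∤ p`, `|g|_v = 1`),
`locUnits_le_kummerNormGroup`: if `g` is a `p`-th power in `k_v` the norm group is everything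
(`H83.normTopOfPowStatement`); otherwise `k_v(β)`, `β ^ p = g`, has degree `p`, is unramified
(C3 `LeafKummerUnram`, helper53), units are norms from unramified extensions (C3 `LeafUnitNorm`),
and the Kummer norm group is the norm group of `k_v(β)`
(`H83.kummerNormGroup_eq_range_norm_of_not_pow`).
-/
import Fermat.Agent.S55.H29.C8Ex
import Fermat.Agent.S55.H66.C3Main
import Fermat.Agent.S55.H53.KummerUnram
import Fermat.Agent.S55.H83.KummerNormH8
import Fermat.Agent.S55.H83.EmbGlue
import Fermat.Agent.S55.H98.KummerIndexPlace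

set_option autoImplicit false

open Polynomial

noncomputable section

namespace Fermat.Agent.S55.H72

open Fermat.Agent.S55.H88 Fermat.Agent.S55.H66 Fermat.Agent.S55.H29 Fermat.Agent.S55

attribute [local instance] factOfPrimes

/-- **Local fact**: for an embedded local field `F ∋ μ_p` of residue characteristic `q ≠ p` and a
unit `a` of `F`, every unit of `F` is a norm from the Kummer algebra `F[X]/(X^p - a)`. -/
theorem locUnits_le_kummerNormGroup (q : ℕ) [Fact q.Prime]
    (F : IntermediateField ℚ_[q] (PadicAlgCl q)) [FiniteDimensional ℚ_[q] F] (p : ℕ)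
    (hp : p.Prime) (hpq : p ≠ q) (ζ : F) (hζ : IsPrimitiveRoot ζ p) (a : F)
    (ha : ‖(a : PadicAlgCl q)‖ = 1) :
    locUnits q F ≤ H8.kummerNormGroup p a := by
  by_cases hpow : ∃ b : F, b ^ p = a
  · obtain ⟨b, rfl⟩ := hpow
    have hb0 : b ≠ 0 := by
      rintro rfl
      rw [zero_pow hp.ne_zero] at ha
      simp at ha
    have h1 := H83.normTopOfPowStatement p hp F ζ hζ (Units.mk0 b hb0)
    rw [Units.val_mk0] at h1
    rw [h1]
    exact le_top
  · push Not at hpow
    obtain ⟨β, hβ⟩ := IsAlgClosed.exists_pow_nat_eq (algebraMap F (PadicAlgCl q) a) hp.pos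
    have hunr : IsUnram q F (IntermediateField.adjoin F {β}) :=
      H53.leafKummerUnram q F p hp hpq a ha β hβ
    have hirr : Irreducible (X ^ p - C a : F[X]) := X_pow_sub_C_irreducible_of_prime hp hpow
    have hmonic : (X ^ p - C a : F[X]).Monic := monic_X_pow_sub_C a hp.ne_zero
    have hroot : Polynomial.aeval β (X ^ p - C a : F[X]) = 0 := by
      simp [hβ]
    have hint : IsIntegral F β := ⟨X ^ p - C a, hmonic, hroot⟩
    have hmin : minpoly F β = X ^ p - C a :=
      (minpoly.eq_of_irreducible_of_monic hirr hroot hmonic).symm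
    have hfd : FiniteDimensional F (IntermediateField.adjoin F {β}) :=
      IntermediateField.adjoin.finiteDimensional hint
    have hdeg : Module.finrank F (IntermediateField.adjoin F {β}) = p := by
      rw [IntermediateField.adjoin.finrank hint, hmin, natDegree_X_pow_sub_C]
    have heq := H83.kummerNormGroup_eq_range_norm_of_not_pow hp hpow
      (⟨β, IntermediateField.mem_adjoin_simple_self F β⟩ : IntermediateField.adjoin F {β})
      (Subtype.ext hβ) hdeg
    intro u hu
    rw [heq]
    obtain ⟨w, hw1, hw⟩ := c3_unitNorm q F (IntermediateField.adjoin F {β}) hunr (u : F) hu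
    have hw0 : w ≠ 0 := by
      rintro rfl
      simp [nrm] at hw1
    exact ⟨Units.mk0 w hw0, Units.ext hw⟩

/-- **Leaf (UNIT-NORM)** of C8: at almost all finite places the local units are local norms from
`k(g^{1/p})`. -/
theorem unitNorm : UnitNormStatement := by
  intro k _ _ p hp hp2 ζ hζ g
  have hp0 : (p : k) ≠ 0 := Nat.cast_ne_zero.2 hp.ne_zero
  have h1 := H83.finiteNonunitStatement k g
  have h2 := H83.finiteNonunitStatement k (Units.mk0 (p : k) hp0)
  refine (h1.union h2).subset ?_
  intro v hv
  by_contra hcon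
  simp only [Set.mem_union, Set.mem_ofPred_eq, not_or, not_not] at hcon
  obtain ⟨hg1, hp1⟩ := hcon
  apply hv
  have hfd := H98.finiteDimensional_finPlace_field v
  have hpq : p ≠ (v.1 : ℕ) := by
    intro hpv
    have h3 : ‖v.emb ((Units.mk0 (p : k) hp0 : kˣ) : k)‖ = 1 := hp1
    rw [Units.val_mk0, map_natCast, hpv] at h3
    have h4 : ‖algebraMap ℚ_[(v.1 : ℕ)] (PadicAlgCl (v.1 : ℕ)) ((v.1 : ℕ) : ℚ_[(v.1 : ℕ)])‖ =
        ((v.1 : ℕ) : ℝ)⁻¹ :=
      (PadicAlgCl.norm_extends (v.1 : ℕ) _).trans Padic.norm_p
    rw [map_natCast] at h4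
    rw [h4] at h3
    have h5 : ((v.1 : ℕ) : ℝ) = 1 := by
      rw [← inv_inv ((v.1 : ℕ) : ℝ), h3, inv_one]
    have h6 : (v.1 : ℕ) = 1 := by exact_mod_cast h5
    exact (v.1.2.one_lt.ne') h6
  exact locUnits_le_kummerNormGroup (v.1 : ℕ) v.field p hp hpq (locEmb (v.1 : ℕ) v.emb ζ)
    (hζ.map_of_injective (locEmb (v.1 : ℕ) v.emb).injective) _ hg1

end Fermat.Agent.S55.H72
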